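import Fermat.Agent.RowS56.Shape
import Fermat.Agent.Engine.Galois
import Fermat.Agent.Deform.Adjoint

/-!
# The flat condition at an odd prime

Cocycles vanishing on a kernel with Fontaine's bound and, in the ordinary shape, with zero lower
entry on the unipotent part of inertia: a space of dimension at most four containing the first
order lifts with finite flat models.
-/

noncomputable section

namespace Fermat.Agent.RowS56

open Fermat.Agent.FlatJ0 Fermat.Agent.GalCoh.Descent Module ExtCitation Matrix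
open Fermat.Agent.Deform (cocOf)

local notation "Ω" => AlgebraicClosure ℚ
local notation "G_ℚ" => (AlgebraicClosure ℚ) ≃ₐ[ℚ] (AlgebraicClosure ℚ)

variable {k : Type} [Field k] {A : ValuationSubring Ω} {p : ℕ} [Fact p.Prime] {N : Subgroup G_ℚ}
  {ρ : G_ℚ →* Matrix (Fin 2) (Fin 2) k}

variable (A p ρ) in
/-- In ordinary shape, functions with zero lower entry on the unipotent part of inertia. -/
def lowSpace (P : (Matrix (Fin 2) (Fin 2) k)ˣ) :
    Submodule k (↥(A.decompositionSubgroup ℚ) → Matrix (Fin 2) (Fin 2) k) where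
  carrier := {c | IsOrdShape A p (conjRep P ρ) → ∀ σ : ↥(A.decompositionSubgroup ℚ),
    (σ : G_ℚ) ∈ A.inertiaSubgroupIn ℚ → conjRep P ρ σ 0 0 = 1 → conjFun A P c σ 1 0 = 0}
  zero_mem' := fun _ σ _ _ => by rw [map_zero]; rfl
  add_mem' := fun {a b} ha hb hord σ hσ h1 => by
    rw [map_add, Pi.add_apply, Matrix.add_apply, ha hord σ hσ h1, hb hord σ hσ h1, add_zero]
  smul_mem' := fun t a ha hord σ hσ h1 => by
    rw [map_smul, Pi.smul_apply, Matrix.smul_apply, ha hord σ hσ h1, smul_zero]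

omit [Fact (Nat.Prime p)] in
lemma adCobound_mem_lowSpace (P : (Matrix (Fin 2) (Fin 2) k)ˣ) (X : Matrix (Fin 2) (Fin 2) k) :
    adCobound A ρ X ∈ lowSpace A p ρ P := by
  intro hord σ hσ h1
  have hu := hord.map_ker (σ := (σ : G_ℚ)) ⟨hσ, h1⟩
  have hσi : (σ⁻¹ : G_ℚ) ∈ hord.ker := inv_mem ⟨hσ, h1⟩
  have hu' := hord.map_ker hσi
  have e : conjFun A P (adCobound A ρ X) σ =
      conjRep P ρ (σ : G_ℚ) * (P.1 * X * P⁻¹.1) * conjRep P ρ (σ⁻¹ : G_ℚ) - P.1 * X * P⁻¹.1 := by
    show P.1 * adCobound A ρ X σ * P⁻¹.1 = _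
    rw [adCobound_apply, adMap_apply, conjRep_apply, conjRep_apply]
    simp [mul_sub, sub_mul, mul_assoc]
  rw [e, hu, hu']
  simp [Matrix.mul_apply, Fin.sum_univ_two, Matrix.vecMul, dotProduct]

variable (A p ρ) in
/-- The flat condition in a basis. -/
def flatCondOdd (P : (Matrix (Fin 2) (Fin 2) k)ˣ) :
    Submodule k (↥(A.decompositionSubgroup ℚ) → Matrix (Fin 2) (Fin 2) k) :=
  ⨆ N : {N : Subgroup G_ℚ // IsBoundKernel A p N ρ}, adCocycles A N.1 ρ ⊓ lowSpace A p ρ P

/-- Cocycles from classes, for a space between coboundaries and cocycles. -/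
theorem finrank_le_four_of_classes
    {Z : Submodule k (↥(A.decompositionSubgroup ℚ) → Matrix (Fin 2) (Fin 2) k)}
    (hZB : adCoboundaries A ρ ≤ Z)
    (hcl : FiniteDimensional k (Z.map (adCoboundaries A ρ).mkQ) ∧
      finrank k (Z.map (adCoboundaries A ρ).mkQ) ≤ finrank k (adInvariants A ρ) + 1) :
    FiniteDimensional k Z ∧ finrank k Z ≤ 4 := by
  obtain ⟨hB, hB3⟩ := finrank_adCoboundaries (A := A) (ρ := ρ)
  obtain ⟨hC, hC1⟩ := hcl
  let f := (adCoboundaries A ρ).mkQ.domRestrict Z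
  have hrange : LinearMap.range f = Z.map (adCoboundaries A ρ).mkQ :=
    LinearMap.range_domRestrict _ _
  have hker : (LinearMap.ker f).map Z.subtype = adCoboundaries A ρ := by
    rw [LinearMap.ker_domRestrict, Submodule.map_comap_subtype, Submodule.ker_mkQ,
      inf_eq_right.2 hZB]
  let e := Submodule.equivMapOfInjective _ Z.injective_subtype (LinearMap.ker f)
  have h1 : FiniteDimensional k ((LinearMap.ker f).map Z.subtype) := hker.symm ▸ hB
  have h2 : FiniteDimensional k (LinearMap.ker f) := Module.Finite.equiv e.symm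
  have h3 : FiniteDimensional k (LinearMap.range f) := hrange.symm ▸ hC
  have : FiniteDimensional k (Z ⧸ LinearMap.ker f) :=
    Module.Finite.equiv f.quotKerEquivRange.symm
  have : FiniteDimensional k Z := Module.Finite.of_submodule_quotient (LinearMap.ker f)
  refine ⟨inferInstance, ?_⟩
  have h := f.finrank_range_add_finrank_ker
  rw [hrange, e.finrank_eq, hker] at h
  omega

/-- An additive invariant kills the connected points. -/
lemma hom_eq_zero_of_conn {W U : Type} [AddCommGroup W] [Finite W] [Module (ZMod p) W]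
    [AddCommGroup U] [Module (ZMod p) U] {act : G_ℚ →* AddMonoid.End W}
    {M : Subalgebra (GaloisRep.ratLocalizedAt p) (W → Ω)} (h : IsOver A p) (hM : IsModel p act M)
    (hp3 : 3 ≤ p) (f : W →+ U) (hf : ∀ σ ∈ A.inertiaSubgroupIn ℚ, ∀ x, f (act σ x) = f x) {x : W}
    (hx : Conn A M x) : f x = 0 :=
  (Module.forall_dual_apply_eq_zero_iff (ZMod p) _).mp fun l =>
    dual_eq_zero_of_conn h hM hp3 (l.comp (f.toZModLinearMap p))
      (fun σ hσ y => congrArg l (hf σ hσ y)) hx

variable [CharP k p] [Finite k]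

omit [Finite k] in
/-- The cocycles of one kernel in the flat condition. -/
theorem finrank_flatSpace_le (h : IsOver A p) (hp3 : 3 ≤ p)
    (hdet : ∀ σ, (ρ σ).det = ((cycloChar p σ : ZMod p).val : k))
    (hN : IsBoundKernel A p N ρ) {P : (Matrix (Fin 2) (Fin 2) k)ˣ}
    (hP : IsOrdShape A p (conjRep P ρ) ∨ IsSSShape A p (conjRep P ρ)) :
    FiniteDimensional k ↥(adCocycles A N ρ ⊓ lowSpace A p ρ P) ∧
      finrank k ↥(adCocycles A N ρ ⊓ lowSpace A p ρ P) ≤ 4 := by
  have hN' := hN.conj P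
  set ρ' := conjRep P ρ with hρ'
  let Z' := adCocycles A N ρ' ⊓ (lowSpace A p ρ' 1)
  have e1 : conjRep 1 ρ' = ρ' := MonoidHom.ext fun σ => by simp [conjRep_apply]
  have hf1 : ∀ c, conjFun A (1 : (Matrix (Fin 2) (Fin 2) k)ˣ) c = c := fun c => funext fun σ => by
    simp [conjFun]
  have hmap : ∀ c ∈ adCocycles A N ρ ⊓ lowSpace A p ρ P, conjFun A P c ∈ Z' := fun c hc =>
    ⟨map_conjFun_le P ⟨c, hc.1, rfl⟩, fun hord σ hσ h1 => by
      rw [hf1]; rw [e1] at hord h1; exact hc.2 hord σ hσ h1⟩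
  have hB : ∀ X, X.trace = 0 → adCobound A ρ' X ∈ Z' := fun X _ =>
    ⟨adCobound_mem_cocycles hN'.trivial hN'.continuous X, adCobound_mem_lowSpace 1 X⟩
  have hB' : adCoboundaries A ρ' ≤ Z' := by
    rintro c ⟨X, hX, hc⟩
    have e : c = adCobound A ρ' X := funext fun σ => by rw [hc, adCobound_apply, adMap_apply]
    exact e ▸ hB X hX
  have hZ' : FiniteDimensional k Z' ∧ finrank k Z' ≤ 4 := by
    rcases hP with hord | hss
    · obtain ⟨g, hg⟩ := hord.exists_gen
      refine finrank_le_four_of_classes hB'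
        (IsOrdGen.finrank_map_le hord hg h hp3 hN' inf_le_left hB fun _ c hc σ hσ => ?_)
      rw [evalAt_apply (MultRed.inertia_mem_decomposition hσ.1), ← hf1 c]
      exact hc.2 (by rw [e1]; exact hord) _ hσ.1 (by rw [e1]; exact hσ.2)
    · obtain ⟨g, hg⟩ := hss.exists_gen
      obtain ⟨hfin, hle⟩ := finrank_adCocycles_le_four hN'
        (hg.finrank_adClasses_le_of_det h hp3 hN' fun h3 => by
          have hd : (ρ' g).det = (ρ g).det := by rw [hρ', conjRep_apply, det_units_conj]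
          rw [hd, hdet]
          subst h3
          rw [show ((cycloChar 3 g : ZMod 3).val : k) =
            ZMod.castHom (dvd_refl 3) k (cycloChar 3 g : ZMod 3) by
            rw [ZMod.castHom_apply, ZMod.cast_eq_val], ← map_pow, ← Units.val_pow_eq_pow_val,
            ZMod.units_pow_card_sub_one_eq_one, Units.val_one, map_one])
      have : FiniteDimensional k Z' :=
        Submodule.finiteDimensional_of_le (inf_le_left : Z' ≤ adCocycles A N ρ')
      exact ⟨this, (Submodule.finrank_mono inf_le_left).trans hle⟩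
  obtain ⟨hfin, hle⟩ := hZ'
  let f : ↥(adCocycles A N ρ ⊓ lowSpace A p ρ P) →ₗ[k] Z' :=
    ((conjFun A P).comp (adCocycles A N ρ ⊓ lowSpace A p ρ P).subtype).codRestrict _ fun c =>
      hmap c c.2
  have hf : Function.Injective f := fun c c' e =>
    Subtype.ext (conjFun_injective P (congrArg Subtype.val e))
  exact ⟨Module.Finite.of_injective f hf,
    (LinearMap.finrank_le_finrank_of_injective hf).trans hle⟩

/-- **The flat condition has dimension at most four.** -/
theorem finrank_flatCondOdd_le (h : IsOver A p) (hp3 : 3 ≤ p)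
    (hdet : ∀ σ, (ρ σ).det = ((cycloChar p σ : ZMod p).val : k))
    {P : (Matrix (Fin 2) (Fin 2) k)ˣ}
    (hP : IsOrdShape A p (conjRep P ρ) ∨ IsSSShape A p (conjRep P ρ)) :
    FiniteDimensional k (flatCondOdd A p ρ P) ∧ finrank k (flatCondOdd A p ρ P) ≤ 4 := by
  classical
  rcases isEmpty_or_nonempty {N : Subgroup G_ℚ // IsBoundKernel A p N ρ} with he | hne
  · have hbot : flatCondOdd A p ρ P = ⊥ := iSup_of_empty _
    rw [hbot]
    exact ⟨inferInstance, by simp⟩
  have hdir : Directed (· ≤ ·) fun N : {N : Subgroup G_ℚ // IsBoundKernel A p N ρ} =>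
      adCocycles A N.1 ρ ⊓ lowSpace A p ρ P := fun N N' =>
    ⟨⟨N.1 ⊓ N'.1, N.2.inf N'.2⟩, inf_le_inf_right _ (adCocycles_anti inf_le_left),
      inf_le_inf_right _ (adCocycles_anti inf_le_right)⟩
  have hrank : Module.rank k (flatCondOdd A p ρ P) ≤ (4 : ℕ) := by
    refine rank_le fun s hs => ?_
    obtain ⟨N, hsub⟩ : ∃ N : {N : Subgroup G_ℚ // IsBoundKernel A p N ρ},
        ∀ c ∈ s, c.1 ∈ adCocycles A N.1 ρ ⊓ lowSpace A p ρ P := by
      clear hs
      induction s using Finset.induction with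
      | empty => exact ⟨hne.some, by simp⟩
      | insert a t _ ih =>
        obtain ⟨N, hNt⟩ := ih
        obtain ⟨N', hN'a⟩ := (Submodule.mem_iSup_of_directed _ hdir).1 a.2
        obtain ⟨N'', h1, h2⟩ := hdir N N'
        refine ⟨N'', fun c hc => ?_⟩
        rcases Finset.mem_insert.1 hc with rfl | hc
        · exact h2 hN'a
        · exact h1 (hNt c hc)
    obtain ⟨hfin, hle⟩ := finrank_flatSpace_le h hp3 hdet N.2 hP
    have hli : LinearIndependent k fun c : s =>
        (⟨c.1.1, hsub c.1 c.2⟩ : ↥(adCocycles A N.1 ρ ⊓ lowSpace A p ρ P)) := by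
      refine LinearIndependent.of_comp (Submodule.subtype _) ?_
      exact hs.map' (flatCondOdd A p ρ P).subtype (Submodule.ker_subtype _)
    have h4 := hli.fintype_card_le_finrank.trans hle
    rwa [Fintype.card_coe] at h4
  have : FiniteDimensional k (flatCondOdd A p ρ P) :=
    Module.rank_lt_aleph0_iff.1 (hrank.trans_lt (Cardinal.natCast_lt_aleph0))
  exact ⟨inferInstance, Module.finrank_le_of_rank_le hrank⟩

/-- **First order lifts with a model lie in the flat condition.** -/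
theorem cocOf_mem_flatCondOdd (h : IsOver A p) (hp3 : 3 ≤ p) (P : (Matrix (Fin 2) (Fin 2) k)ˣ)
    {N' : G_ℚ →* Matrix (Fin 2) (Fin 2) (DualNumber k)}
    (hfst : ∀ σ, (N' σ).map TrivSqZeroExt.fst = ρ σ) (htr : ∀ σ, (cocOf ρ N' σ).trace = 0)
    {F : IntermediateField ℚ Ω} [FiniteDimensional ℚ F]
    (hF : ∀ σ : G_ℚ, (∀ x ∈ F, σ x = x) → N' σ = 1)
    {M : Subalgebra (GaloisRep.ratLocalizedAt p) ((Fin 2 → DualNumber k) → Ω)}
    (hM : IsModel p (matAct N') M) :
    (fun σ : ↥(A.decompositionSubgroup ℚ) => cocOf ρ N' σ) ∈ flatCondOdd A p ρ P := by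
  have : Finite (DualNumber k) := inferInstanceAs (Finite (k × k))
  have hpk : (p : k) = 0 := CharP.cast_eq_zero k p
  let : Module (ZMod p) (Fin 2 → k) := AddCommGroup.zmodModule fun v => by
    rw [← Nat.cast_smul_eq_nsmul k, hpk, zero_smul]
  let : Module (ZMod p) (Fin 2 → DualNumber k) := AddCommGroup.zmodModule fun v => by
    rw [← Nat.cast_smul_eq_nsmul k, hpk, zero_smul]
  have h0 : ∀ σ, N' σ = 1 → ρ σ = 1 ∧ cocOf ρ N' σ = 0 := fun σ e => by
    refine ⟨?_, ?_⟩
    · rw [← hfst, e, Matrix.map_one _ TrivSqZeroExt.fst_zero TrivSqZeroExt.fst_one]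
    · rw [cocOf, e, show (1 : Matrix (Fin 2) (Fin 2) (DualNumber k)).map TrivSqZeroExt.snd = 0 by
        rw [← Deform.dualMat_one, Deform.snd_dualMat], zero_mul]
  have hker : ∀ σ ∈ modelKer A p (matAct N'), N' σ = 1 := fun σ hσ =>
    Matrix.ext_of_mulVec_single fun i => by
      rw [one_mulVec, ← matAct_apply, (mem_modelKer.mp hσ).1.2]
      rfl
  have hF' : ∀ σ ∈ F.fixingSubgroup, N' σ = 1 := fun σ hσ =>
    hF σ ((IntermediateField.mem_fixingSubgroup_iff _ _).mp hσ)
  have hbk : IsBoundKernel A p (modelKer A p (matAct N')) ρ :=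
    { le := modelKer_le
      normal := modelKer_normal
      isOpen := modelKer_isOpen h hM
      bound := fun γ hγ => hasBound h hM hγ
      trivial := fun σ hσ => (h0 σ (hker σ hσ)).1
      continuous := ⟨F, inferInstance, fun σ hσ => (h0 σ (hF' σ hσ)).1⟩ }
  refine Submodule.mem_iSup_of_mem (⟨_, hbk⟩ : {N : Subgroup G_ℚ // IsBoundKernel A p N ρ})
    ⟨⟨fun σ τ => ?_, fun σ => htr σ, fun σ hσ => (h0 _ (hker _ hσ)).2, F, inferInstance,
      fun σ hσ => (h0 _ (hF' _ hσ)).2⟩, fun hord σ hσ h1 => ?_⟩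
  · beta_reduce
    rw [Subgroup.coe_mul, Deform.cocOf_mul hfst, Deform.adRep_apply, add_comm]
  -- the value on the fixed vector is connected and killed by the invariant coordinate
  set e' : Fin 2 → k := P⁻¹.1 *ᵥ Pi.single 0 1 with he'
  have hfix : ρ σ *ᵥ e' = e' := by
    have hu := hord.map_ker (σ := (σ : G_ℚ)) ⟨hσ, h1⟩
    have e : ρ (σ : G_ℚ) * P⁻¹.1 = P⁻¹.1 * conjRep P ρ σ := by simp [conjRep_apply, ← mul_assoc]
    rw [he', mulVec_mulVec, e, ← mulVec_mulVec, hu]
    congr 1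
    funext i
    fin_cases i <;> simp
  let ι : (Fin 2 → k) →+ (Fin 2 → DualNumber k) :=
    { toFun := fun v i => TrivSqZeroExt.inr (v i)
      map_zero' := funext fun i => by simp
      map_add' := fun v w => funext fun i => TrivSqZeroExt.inr_add k (v i) (w i) }
  have hι : Function.Injective ι := fun v w e => funext fun i =>
    TrivSqZeroExt.inr_injective (congrFun e i)
  have hfst' : ∀ (τ : G_ℚ) i j, TrivSqZeroExt.fst (N' τ i j) = ρ τ i j := fun τ i j => by
    rw [← hfst τ]; rfl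
  have heq : ∀ τ v, ι (matAct ρ τ v) = matAct N' τ (ι v) := fun τ v => funext fun i => by
    fin_cases i <;> ext
    all_goals simp [ι, matAct_apply, mulVec, dotProduct, Fin.sum_univ_two, hfst']
    all_goals ring_nf
  have hM' := hM.pullback ι hι heq
  have hy : matAct N' σ (fun i => TrivSqZeroExt.inl (e' i)) - (fun i => TrivSqZeroExt.inl (e' i)) =
      ι (cocOf ρ N' σ *ᵥ e') := by
    have hsnd : cocOf ρ N' σ *ᵥ e' = (N' σ).map TrivSqZeroExt.snd *ᵥ e' := by
      conv_lhs => rw [← hfix, mulVec_mulVec, ← Deform.snd_eq_cocOf_mul]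
    rw [hsnd]
    funext i
    have hf := congrFun hfix i
    fin_cases i
    all_goals simp only [mulVec, dotProduct, Fin.sum_univ_two] at hf
    all_goals ext
    all_goals simp [ι, matAct_apply, hfst'] at hf ⊢
    all_goals linear_combination hf
  have hconn : Conn A (M.map (pullback ι)) (cocOf ρ N' σ *ᵥ e') :=
    Conn.pullback ι (hy ▸ conn_act_sub h hM hσ _)
  show (P.1 * cocOf ρ N' σ * P⁻¹.1) 1 0 = 0
  let : Algebra (ZMod p) k := ZMod.algebra k p
  let f : (Fin 2 → k) →+ k :=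
    (Pi.evalAddMonoidHom (fun _ => k) 1).comp P.1.mulVecLin.toAddMonoidHom
  have hinv : ∀ τ ∈ A.inertiaSubgroupIn ℚ, ∀ v, f (matAct ρ τ v) = f v := fun τ hτ v => by
    show (P.1 *ᵥ (ρ τ *ᵥ v)) 1 = (P.1 *ᵥ v) 1
    have e : P.1 * ρ τ = conjRep P ρ τ * P.1 := by simp [conjRep_apply, mul_assoc]
    rw [mulVec_mulVec, e, ← mulVec_mulVec]
    simp [mulVec, dotProduct, Fin.sum_univ_two, hord.unram τ hτ,
      hord.lower τ (MultRed.inertia_mem_decomposition hτ)]
  have h2 : (P.1 *ᵥ (cocOf ρ N' σ *ᵥ e')) 1 = 0 := hom_eq_zero_of_conn h hM' hp3 f hinv hconn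
  rw [he', mulVec_mulVec, mulVec_mulVec, mulVec_single_one] at h2
  exact h2

/-- **The flat condition at `p`.** -/
theorem exists_flat_condition (h : IsOver A p) (hp3 : 3 ≤ p)
    (hρ : GaloisFactorsThroughFiniteLevel ρ)
    (hdet : ∀ σ, (ρ σ).det = ((cycloChar p σ : ZMod p).val : k))
    {M : Subalgebra (GaloisRep.ratLocalizedAt p) ((Fin 2 → k) → Ω)}
    (hM : IsModel p (matAct ρ) M) :
    ∃ L : Submodule k (↥(A.decompositionSubgroup ℚ) → Matrix (Fin 2) (Fin 2) k),
      (∀ c ∈ L, (∀ σ τ : ↥(A.decompositionSubgroup ℚ),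
        c (σ * τ) = c σ + ρ σ * c τ * ρ (σ : G_ℚ)⁻¹) ∧ ∀ σ, (c σ).trace = 0) ∧
      (∀ X : Matrix (Fin 2) (Fin 2) k, X.trace = 0 →
        (fun σ : ↥(A.decompositionSubgroup ℚ) => ρ σ * X * ρ (σ : G_ℚ)⁻¹ - X) ∈ L) ∧
      (FiniteDimensional k L ∧ finrank k L ≤ 4) ∧
      ∀ N' : G_ℚ →* Matrix (Fin 2) (Fin 2) (DualNumber k),
        (∀ σ, (N' σ).map TrivSqZeroExt.fst = ρ σ) → (∀ σ, (cocOf ρ N' σ).trace = 0) →
        (∃ F : IntermediateField ℚ Ω, FiniteDimensional ℚ F ∧
          ∀ σ : G_ℚ, (∀ x ∈ F, σ x = x) → N' σ = 1) →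
        (∃ M', IsModel p (matAct N') M') →
        (fun σ : ↥(A.decompositionSubgroup ℚ) => cocOf ρ N' σ) ∈ L := by
  have hpk : (p : k) = 0 := CharP.cast_eq_zero k p
  let : Module (ZMod p) (Fin 2 → k) := AddCommGroup.zmodModule fun v => by
    rw [← Nat.cast_smul_eq_nsmul k, hpk, zero_smul]
  obtain ⟨P, hP⟩ := isFlatShape_of_model h hp3 hdet hM
  obtain ⟨F, hF, hFρ⟩ := hρ
  have hbk : IsBoundKernel A p (modelKer A p (matAct ρ)) ρ :=
    { le := modelKer_le
      normal := modelKer_normal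
      isOpen := modelKer_isOpen h hM
      bound := fun γ hγ => hasBound h hM hγ
      trivial := fun σ hσ => Matrix.ext_of_mulVec_single fun i => by
        rw [one_mulVec, ← matAct_apply, (mem_modelKer.mp hσ).1.2]
        rfl
      continuous := ⟨F, hF, fun σ hσ =>
        hFρ σ ((IntermediateField.mem_fixingSubgroup_iff _ _).mp hσ)⟩ }
  have hsub : ∀ c ∈ flatCondOdd A p ρ P, (∀ σ τ : ↥(A.decompositionSubgroup ℚ),
      c (σ * τ) = c σ + ρ σ * c τ * ρ (σ : G_ℚ)⁻¹) ∧ ∀ σ, (c σ).trace = 0 := by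
    intro c hc
    have hle : flatCondOdd A p ρ P ≤ flatCond A p ρ := iSup_mono fun N => inf_le_left
    obtain ⟨N', -, hc'⟩ := (mem_flatCond_iff hbk).mp (hle hc)
    exact ⟨hc'.1, hc'.2.1⟩
  refine ⟨flatCondOdd A p ρ P, hsub, fun X hX => ?_, finrank_flatCondOdd_le h hp3 hdet hP,
    fun N' h1 h2 ⟨F', hF', h3⟩ ⟨M', h4⟩ => ?_⟩
  · refine Submodule.mem_iSup_of_mem (⟨_, hbk⟩ : {N : Subgroup G_ℚ // IsBoundKernel A p N ρ})
      ⟨adCoboundaries_le hbk ⟨X, hX, fun σ => rfl⟩, ?_⟩
    have e : (fun σ : ↥(A.decompositionSubgroup ℚ) => ρ σ * X * ρ (σ : G_ℚ)⁻¹ - X) =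
        adCobound A ρ X := funext fun σ => by rw [adCobound_apply, adMap_apply]
    rw [e]
    exact adCobound_mem_lowSpace P X
  · have := hF'
    exact cocOf_mem_flatCondOdd h hp3 P h1 h2 h3 h4

end Fermat.Agent.RowS56
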