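import Fermat.Agent.RowS56.Model.Top
import Fermat.Agent.RowS56.Model.OfHopf
import Fermat.Agent.FlatJ0.FlatCond
import Fermat.Agent.Frobenius.Exists
import Fermat.Agent.TameInertia.Qbar
import Mathlib.LinearAlgebra.Matrix.Charpoly.FiniteField

/-!
# The residual shape of a flat representation

A two-dimensional representation with a finite flat model at an odd prime `p` and cyclotomic
determinant is ordinary or supersingular at `p`.
-/

noncomputable section

namespace Fermat.Agent.RowS56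

open Fermat.Agent.FlatJ0 Fermat.Agent.GalCoh.Descent Module ExtCitation Matrix
open EllLocal (resFun kummerRes)

local notation "Ω" => AlgebraicClosure ℚ
local notation "G_ℚ" => (AlgebraicClosure ℚ) ≃ₐ[ℚ] (AlgebraicClosure ℚ)

variable {k : Type} [Field k] {p : ℕ} [Fact p.Prime]

section

variable {R : Type} [CommRing R]

/-- The action on column vectors. -/
def matAct (ρ : G_ℚ →* Matrix (Fin 2) (Fin 2) R) : G_ℚ →* AddMonoid.End (Fin 2 → R) where
  toFun σ := (ρ σ).mulVecLin.toAddMonoidHom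
  map_one' := DFunLike.ext _ _ fun v => by
    show ρ 1 *ᵥ v = v
    rw [map_one, one_mulVec]
  map_mul' σ τ := DFunLike.ext _ _ fun v => by
    show ρ (σ * τ) *ᵥ v = ρ σ *ᵥ (ρ τ *ᵥ v)
    rw [map_mul, mulVec_mulVec]

lemma matAct_apply (ρ : G_ℚ →* Matrix (Fin 2) (Fin 2) R) (σ : G_ℚ) (v : Fin 2 → R) :
    matAct ρ σ v = ρ σ *ᵥ v := rfl

end

/-- Cayley–Hamilton in dimension two. -/
lemma sq_add_det (M : Matrix (Fin 2) (Fin 2) k) : M * M + M.det • 1 = M.trace • M := by
  ext i j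
  fin_cases i <;> fin_cases j <;>
    simp [mul_apply, Fin.sum_univ_two, det_fin_two, trace_fin_two] <;> ring

/-- The trace commutes with `p`-th powers. -/
lemma trace_pow_char [CharP k p] (hp3 : 3 ≤ p) (M : Matrix (Fin 2) (Fin 2) k) :
    (M ^ p).trace = M.trace ^ p := by
  have hp : p.Prime := Fact.out
  obtain ⟨j, hj⟩ := hp.odd_of_ne_two (by omega)
  set D : Matrix (Fin 2) (Fin 2) k := (2 : k) • M - M.trace • 1 with hD
  have hDD : D * D = (M.trace ^ 2 - 4 * M.det) • 1 := by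
    simp only [hD, Matrix.sub_mul, Matrix.mul_sub, Matrix.smul_mul, Matrix.mul_smul, mul_one, one_mul]
    rw [eq_sub_of_add_eq (sq_add_det M)]
    module
  have hDp : D ^ p = (M.trace ^ 2 - 4 * M.det) ^ j • D := by
    rw [hj, pow_succ, pow_mul, sq, hDD, smul_pow, one_pow, smul_mul_assoc, one_mul]
  have hsub : D ^ p = (2 : k) ^ p • M ^ p - M.trace ^ p • 1 := by
    rw [hD, sub_pow_char_of_commute _ ((Commute.one_right _).smul_right _), smul_pow, smul_pow,
      one_pow]
  have h2 : (2 : k) ^ p = 2 := by rw [← frobenius_def]; exact map_ofNat _ 2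
  have h3 := congrArg Matrix.trace (hsub.symm.trans hDp)
  simp only [trace_sub, trace_smul, trace_one, Fintype.card_fin, hD, smul_eq_mul, h2] at h3
  have h20 : (2 : k) ≠ 0 := fun e => by
    have : ((2 : ℕ) : k) = 0 := by simpa using e
    have := Nat.le_of_dvd two_pos ((CharP.cast_eq_zero_iff k p 2).mp this)
    omega
  exact mul_left_cancel₀ h20 (by push_cast at h3 ⊢; linear_combination h3)

/-- A vector with zero cross product against `v ≠ 0` is a multiple of it. -/
lemma mem_span_of_cross {v y : Fin 2 → k} (hv : v ≠ 0) (e : v 0 * y 1 = v 1 * y 0) :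
    y ∈ k ∙ v := by
  rw [Submodule.mem_span_singleton]
  by_cases h0 : v 0 = 0
  · have h1 : v 1 ≠ 0 := fun h1 => hv (funext fun i => by fin_cases i <;> assumption)
    have hy : y 0 = 0 := by
      rw [h0, zero_mul] at e
      exact (mul_eq_zero.mp e.symm).resolve_left h1
    refine ⟨y 1 / v 1, funext fun i => ?_⟩
    fin_cases i <;> simp [h0, hy, div_mul_cancel₀ _ h1]
  · refine ⟨y 0 / v 0, funext fun i => ?_⟩
    fin_cases i <;> simp [div_mul_cancel₀ _ h0]
    rw [div_mul_eq_mul_div, div_eq_iff h0]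
    linear_combination -e

/-- With an eigenvector for the determinant, the quotient action is trivial. -/
lemma sub_mem_span_of_eigen {M : Matrix (Fin 2) (Fin 2) k} {v : Fin 2 → k} (hv : v ≠ 0)
    (hd : M.det ≠ 0) (he : M *ᵥ v = M.det • v) (y : Fin 2 → k) : M *ᵥ y - y ∈ k ∙ v := by
  have e0 := congrFun he 0
  have e1 := congrFun he 1
  simp [mulVec, dotProduct, Fin.sum_univ_two] at e0 e1
  refine mem_span_of_cross hv (mul_left_cancel₀ hd ?_)
  simp only [Pi.sub_apply, mulVec, dotProduct, Fin.sum_univ_two]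
  rw [det_fin_two] at e0 e1 ⊢
  linear_combination (M 0 0 * y 0 + M 0 1 * y 1) * e1 - (M 1 0 * y 0 + M 1 1 * y 1) * e0

/-- A change of basis with given first vector. -/
lemma exists_gl_first_column {v : Fin 2 → k} (hv : v ≠ 0) :
    ∃ Q : (Matrix (Fin 2) (Fin 2) k)ˣ, (Q : Matrix (Fin 2) (Fin 2) k) *ᵥ Pi.single 0 1 = v := by
  classical
  let w : Fin 2 → k := if v 0 = 0 then ![1, 0] else ![0, 1]
  let Q : Matrix (Fin 2) (Fin 2) k := !![v 0, w 0; v 1, w 1]
  have hdet : Q.det ≠ 0 := by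
    by_cases h0 : v 0 = 0
    · have h1 : v 1 ≠ 0 := fun h1 => hv (funext fun i => by fin_cases i <;> assumption)
      simp [Q, w, det_fin_two, h0, h1]
    · simp [Q, w, det_fin_two, h0]
  refine ⟨GeneralLinearGroup.mkOfDetNeZero Q hdet, funext fun i => ?_⟩
  rw [mulVec_single_one]
  fin_cases i <;> rfl

variable [Finite k] [CharP k p] [Module (ZMod p) (Fin 2 → k)] {A : ValuationSubring Ω}
  (h : IsOver A p) (hp3 : 3 ≤ p)
  {ρ : G_ℚ →* Matrix (Fin 2) (Fin 2) k}
  (hdet : ∀ σ, (ρ σ).det = ((cycloChar p σ : ZMod p).val : k))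
include h hp3 hdet

omit [Finite k] [Module (ZMod p) (Fin 2 → k)] h hp3 in
lemma det_ne_zero (σ : G_ℚ) : (ρ σ).det ≠ 0 := by
  rw [hdet, Ne, CharP.cast_eq_zero_iff k p]
  exact fun hd => (cycloChar p σ).ne_zero ((ZMod.val_eq_zero _).mp
    (Nat.eq_zero_of_dvd_of_lt hd (ZMod.val_lt _)))

omit [Finite k] [Module (ZMod p) (Fin 2 → k)] hp3 in
/-- Ordinary shape from a line with trivial quotient. -/
lemma exists_isOrdShape {v : Fin 2 → k} (hv : v ≠ 0)
    (hD : ∀ σ ∈ A.decompositionSubgroup ℚ, ρ σ *ᵥ v ∈ k ∙ v)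
    (hI : ∀ σ ∈ A.inertiaSubgroupIn ℚ, ∀ y, ρ σ *ᵥ y - y ∈ k ∙ v) :
    ∃ P : (Matrix (Fin 2) (Fin 2) k)ˣ, IsOrdShape A p (conjRep P ρ) := by
  have hp : p.Prime := Fact.out
  obtain ⟨Q, hQ⟩ := exists_gl_first_column hv
  refine ⟨Q⁻¹, ?_⟩
  have hQ' : (↑Q⁻¹ : Matrix (Fin 2) (Fin 2) k) *ᵥ v = Pi.single 0 1 := by
    rw [← hQ, mulVec_mulVec, Units.inv_mul, one_mulVec]
  have hcol : ∀ (σ : G_ℚ) (j : Fin 2), (fun i => conjRep Q⁻¹ ρ σ i j) =
      (↑Q⁻¹ : Matrix (Fin 2) (Fin 2) k) *ᵥ (ρ σ *ᵥ ((Q : Matrix (Fin 2) (Fin 2) k) *ᵥ Pi.single j 1)) :=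
    fun σ j => by
      rw [mulVec_mulVec, mulVec_mulVec, conjRep_apply, inv_inv, mulVec_single_one, mul_assoc]
      rfl
  have hline : ∀ y ∈ k ∙ v, ((↑Q⁻¹ : Matrix (Fin 2) (Fin 2) k) *ᵥ y) 1 = 0 := fun y hy => by
    obtain ⟨t, rfl⟩ := Submodule.mem_span_singleton.mp hy
    rw [mulVec_smul, hQ', Pi.smul_apply, Pi.single_eq_of_ne (by decide), smul_zero]
  have hlow : ∀ σ ∈ A.decompositionSubgroup ℚ, conjRep Q⁻¹ ρ σ 1 0 = 0 := fun σ hσ => by
    refine (congrFun (hcol σ 0) 1).trans ?_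
    rw [hQ]
    exact hline _ (hD σ hσ)
  have hun : ∀ σ ∈ A.inertiaSubgroupIn ℚ, conjRep Q⁻¹ ρ σ 1 1 = 1 := fun σ hσ => by
    refine (congrFun (hcol σ 1) 1).trans ?_
    set y := (Q : Matrix (Fin 2) (Fin 2) k) *ᵥ Pi.single 1 1 with hy
    rw [← sub_add_cancel (ρ σ *ᵥ y) y, mulVec_add, Pi.add_apply, hline _ (hI σ hσ y), zero_add, hy,
      mulVec_mulVec, Units.inv_mul, one_mulVec, Pi.single_eq_same]
  have h00 : ∀ σ ∈ A.inertiaSubgroupIn ℚ,
      conjRep Q⁻¹ ρ σ 0 0 = ((cycloChar p σ : ZMod p).val : k) := fun σ hσ => by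
    have e : (conjRep Q⁻¹ ρ σ).det = (ρ σ).det := by
      rw [conjRep_apply, inv_inv, det_units_conj']
    rw [det_fin_two, hun σ hσ, hlow σ (MultRed.inertia_mem_decomposition hσ), mul_one, mul_zero,
      sub_zero, hdet] at e
    exact e
  have hcast : ∀ u : (ZMod p)ˣ, ((u : ZMod p).val : k) = ZMod.castHom (dvd_refl p) k (u : ZMod p) :=
    fun u => by rw [ZMod.castHom_apply, ZMod.cast_eq_val]
  refine ⟨hlow, hun, fun σ hσ => ?_, ?_⟩
  · rw [h00 σ hσ, hcast, ← map_pow, ← Units.val_pow_eq_pow_val, ZMod.units_pow_card_sub_one_eq_one,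
      Units.val_one, map_one]
  · obtain ⟨u, hu⟩ := IsCyclic.exists_generator (α := (ZMod p)ˣ)
    obtain ⟨g, hg, hgu⟩ := exists_inertia_cycloChar h.liesOver u
    refine ⟨g, hg, fun n hn => ?_⟩
    rw [h00 g hg, hcast, ← map_pow, ← map_one (ZMod.castHom (dvd_refl p) k),
      ← Units.val_pow_eq_pow_val, (RingHom.injective _).eq_iff, Units.val_eq_one, hgu] at hn
    rw [← ZMod.card_units p, ← Nat.card_eq_fintype_card, ← orderOf_eq_card_of_forall_mem_zpowers hu]
    exact orderOf_dvd_of_pow_eq_one hn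

variable {M : Subalgebra (GaloisRep.ratLocalizedAt p) ((Fin 2 → k) → Ω)}
  (hM : IsModel p (matAct ρ) M)
include hM

/-- Supersingular shape when no inertia-stable line has trivial quotient. -/
theorem isSSShape_of_span_top
    (htop : Submodule.span k {y | ∃ σ ∈ A.inertiaSubgroupIn ℚ, ∃ x, ρ σ *ᵥ x - x = y} = ⊤) :
    IsSSShape A p ρ := by
  classical
  have hp : p.Prime := Fact.out
  have : CharP (IsLocalRing.ResidueField A) p := EllLocal.charP_kA hp h.liesOver
  -- every point is connected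
  have hconn : ∀ x : Fin 2 → k, Conn A M x := fun x => by
    refine conn_of_mem_closure h hM ?_
    have hx : x ∈ Submodule.span k
        {y | ∃ σ ∈ A.inertiaSubgroupIn ℚ, ∃ x, ρ σ *ᵥ x - x = y} := htop ▸ Submodule.mem_top
    induction hx using Submodule.span_induction with
    | mem y hy => exact AddSubmonoid.subset_closure hy
    | zero => exact zero_mem _
    | add y z _ _ hy hz => exact add_mem hy hz
    | smul a y hys hy =>
      clear hys
      induction hy using AddSubmonoid.closure_induction with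
      | mem y hy =>
        obtain ⟨σ, hσ, x, rfl⟩ := hy
        refine AddSubmonoid.subset_closure ⟨σ, hσ, a • x, ?_⟩
        show ρ σ *ᵥ (a • x) - a • x = a • (ρ σ *ᵥ x - x)
        rw [mulVec_smul, smul_sub]
      | zero => rw [smul_zero]; exact zero_mem _
      | add y z _ _ hy hz => rw [smul_add]; exact add_mem hy hz
  obtain ⟨ι, _, b, hb⟩ := exists_latticeBasis h hM
  obtain ⟨z, x₀, ht⟩ := exists_isTop h hM hb hconn
    ⟨Pi.single 0 1, fun e => by simpa using congrFun e 0⟩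
  set θ : G_ℚ → IsLocalRing.ResidueField A := fun σ => kummerRes A z σ with hθ
  have hθmul : ∀ σ ∈ A.inertiaSubgroupIn ℚ, ∀ τ ∈ A.inertiaSubgroupIn ℚ,
      θ (σ * τ) = θ σ * θ τ := fun σ hσ τ hτ => EllLocal.kummerRes_mul hσ hτ ht.ne
  have hθpow : ∀ σ ∈ A.inertiaSubgroupIn ℚ, ∀ j : ℕ, θ (σ ^ j) = θ σ ^ j := fun σ hσ j => by
    induction j with
    | zero => rw [pow_zero, pow_zero]; exact EllLocal.kummerRes_one ht.ne
    | succ j ih => rw [pow_succ, hθmul _ (pow_mem hσ j) _ hσ, ih, pow_succ]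
  obtain ⟨φ, hφ⟩ := Frobenius.exists_isFrobeniusAt_qbar hp h.liesOver
  have hφd := hφ.mem_decompositionSubgroup
  have hconjI : ∀ {σ}, σ ∈ A.inertiaSubgroupIn ℚ → φ * σ * φ⁻¹ ∈ A.inertiaSubgroupIn ℚ :=
    fun hσ => TameInertia.inertia_normal_in_decomposition hφd hσ
  have hθφ : ∀ σ ∈ A.inertiaSubgroupIn ℚ, θ (φ * σ * φ⁻¹) = θ σ ^ p := fun σ hσ => by
    show kummerRes A z _ = kummerRes A z σ ^ p
    rw [EllLocal.kummerRes_conj hφd hσ ht.ne, hφ.smul_residue_eq]
  have hwild : ∀ σ ∈ A.inertiaSubgroupIn ℚ, ∀ m n : ℕ,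
      θ σ ^ m = θ σ ^ n → θ (σ ^ m) = θ (σ ^ n) := fun σ hσ m n e => by rw [hθpow σ hσ, hθpow σ hσ, e]
  -- the integer attached to the depth
  have hcyclo : ∀ (a d : ℕ), (d : ℚ) * ord A p z = (a : ℚ) * rootGap p →
      ∀ σ ∈ A.inertiaSubgroupIn ℚ,
        θ σ ^ d = (((cycloChar p σ : ZMod p).val : ℕ) : IsLocalRing.ResidueField A) ^ a := by
    intro a d e σ hσ
    have hd := MultRed.inertia_mem_decomposition hσ
    obtain ⟨hne, hord⟩ := ord_mu_sub h (one_ne_zero (α := ZMod p))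
    rw [mu_zero] at hne hord
    rw [← kummerRes_zeta h σ, ← EllLocal.kummerRes_pow_left hd hne a, hθ,
      ← EllLocal.kummerRes_pow_left hd ht.ne d]
    refine EllLocal.kummerRes_eq_of_valuation_eq hσ (pow_ne_zero _ hne) (pow_ne_zero _ ht.ne) ?_
    rw [h.valuation_eq_iff (pow_ne_zero _ ht.ne) (pow_ne_zero _ hne), h.ord_pow ht.ne,
      h.ord_pow hne, hord, e]
  have hspan : ∀ {V : Submodule k (Fin 2 → k)}, (∀ σ ∈ A.inertiaSubgroupIn ℚ, ∀ y,
      ρ σ *ᵥ y - y ∈ V) → V = ⊤ := fun {V} hV => by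
    rw [eq_top_iff, ← htop, Submodule.span_le]
    rintro y ⟨σ, hσ, x, rfl⟩
    exact hV σ hσ x
  have hline : ∀ v : Fin 2 → k, v ≠ 0 → k ∙ v ≠ ⊤ := fun v hv e => by
    have := finrank_span_singleton (K := k) hv
    rw [e, finrank_top, finrank_pi, Fintype.card_fin] at this
    omega
  -- the character is not `𝔽_p`-valued
  obtain ⟨σ₁, hσ₁, hσ₁ne⟩ : ∃ σ ∈ A.inertiaSubgroupIn ℚ, θ σ ^ p ≠ θ σ := by
    by_contra! hall
    have hone : ∀ σ ∈ A.inertiaSubgroupIn ℚ, θ σ ^ (p - 1) = 1 := fun σ hσ => by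
      have hne : θ σ ≠ 0 := fun e => by
        have h1 := hθmul σ hσ σ⁻¹ (inv_mem hσ)
        rw [mul_inv_cancel, e, zero_mul] at h1
        exact one_ne_zero ((EllLocal.kummerRes_one ht.ne).symm.trans h1)
      refine mul_right_cancel₀ hne ?_
      rw [← pow_succ, Nat.sub_add_cancel hp.one_le, hall σ hσ, one_mul]
    have hint : ∃ a : ℕ, 0 < a ∧ ((p - 1 : ℕ) : ℚ) * ord A p z = a := by
      let f : A.inertiaSubgroupIn ℚ →* rootsOfUnity (p - 1) (IsLocalRing.ResidueField A) :=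
        have : NeZero (p - 1) := ⟨by omega⟩
        { toFun := fun σ => rootsOfUnity.mkOfPowEq (θ σ.1) (hone σ.1 σ.2)
          map_one' := Subtype.ext (Units.ext (by simpa [hθ] using EllLocal.kummerRes_one ht.ne))
          map_mul' := fun σ τ => Subtype.ext (Units.ext (by simpa using hθmul _ σ.2 _ τ.2)) }
      have : NeZero (p - 1) := ⟨by omega⟩
      obtain ⟨⟨_, g, rfl⟩, hgen⟩ := IsCyclic.exists_monoid_generator (α := f.range)
      refine ht.exists_mul_ord_eq h hM hb g.2 (by omega) (hone _ g.2) fun σ hσ => ?_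
      obtain ⟨j, hj⟩ := hgen ⟨f ⟨σ, hσ⟩, ⟨σ, hσ⟩, rfl⟩
      refine ⟨j, ?_⟩
      have := congrArg (fun x : f.range =>
        (((x : rootsOfUnity (p - 1) (IsLocalRing.ResidueField A)) :
          (IsLocalRing.ResidueField A)ˣ) : IsLocalRing.ResidueField A)) hj
      simpa [f, hθ] using this.symm
    obtain ⟨a, ha, hae⟩ := hint
    rw [Nat.cast_sub hp.one_le, Nat.cast_one] at hae
    have hp1 : (0 : ℚ) < (p : ℚ) - 1 := by
      have : (3 : ℚ) ≤ p := by exact_mod_cast hp3
      linarith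
    have ha1 : a = 1 := by
      have h1 := mul_le_mul_of_nonneg_left ht.le_gap hp1.le
      rw [hae, rootGap, mul_one_div, div_self hp1.ne'] at h1
      have : a ≤ 1 := by exact_mod_cast h1
      omega
    have hc : ord A p z = rootGap p := by
      rw [rootGap, eq_div_iff hp1.ne', mul_comm, hae, ha1, Nat.cast_one]
    refine hline x₀ ht.ne₀ (hspan fun σ hσ y =>
      sub_mem_span_of_eigen ht.ne₀ (det_ne_zero hdet σ) ?_ y)
    have h1 := hcyclo 1 1 (by rw [hc]) σ hσ
    rw [pow_one, pow_one] at h1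
    rw [hdet, Nat.cast_smul_eq_nsmul, ← matAct_apply]
    refine ht.lead_injective h hM hb
      (deep_act h hM hb (MultRed.inertia_mem_decomposition hσ) ht.deep)
      (ht.deep_nsmul h hM hb ht.deep _) ?_
    rw [ht.lead_inertia h hM hb hσ ht.deep, ht.lead_nsmul h hM hb ht.deep]
    show θ σ • _ = _
    rw [h1, Nat.cast_smul_eq_nsmul]
  -- the deep points span
  have hV : Submodule.span k {x | Deep A p b z x} = ⊤ := by
    by_contra hne
    set V := Submodule.span k {x | Deep A p b z x} with hVdef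
    have hVx : V = k ∙ x₀ := by
      refine (Submodule.eq_of_le_of_finrank_le ?_ ?_).symm
      · exact (Submodule.span_singleton_le_iff_mem _ _).mpr (Submodule.subset_span ht.deep)
      · have h1 := Submodule.finrank_lt hne
        rw [finrank_pi, Fintype.card_fin] at h1
        rw [finrank_span_singleton ht.ne₀]
        omega
    have hmem : ∀ x, Deep A p b z x → ∃ t : k, t • x₀ = x := fun x hx =>
      Submodule.mem_span_singleton.mp (hVx ▸ Submodule.subset_span hx)
    obtain ⟨s, hs⟩ := hmem _ (deep_act h hM hb hφd ht.deep)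
    obtain ⟨t, htσ⟩ := hmem _
      (deep_act h hM hb (MultRed.inertia_mem_decomposition hσ₁) ht.deep)
    rw [matAct_apply] at hs htσ
    refine hσ₁ne ?_
    rw [← hθφ σ₁ hσ₁]
    have hs0 : s ≠ 0 := fun e => by
      rw [e, zero_smul] at hs
      have h1 := congrArg (ρ φ⁻¹ *ᵥ ·) hs.symm
      simp only [mulVec_mulVec, ← map_mul, inv_mul_cancel, map_one, one_mulVec, mulVec_zero] at h1
      exact ht.ne₀ h1
    have hact : ρ (φ * σ₁ * φ⁻¹) *ᵥ x₀ = ρ σ₁ *ᵥ x₀ := by
      refine smul_right_injective (Fin 2 → k) hs0 ?_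
      show s • (ρ (φ * σ₁ * φ⁻¹) *ᵥ x₀) = s • (ρ σ₁ *ᵥ x₀)
      rw [← mulVec_smul, hs, mulVec_mulVec, ← map_mul, inv_mul_cancel_right, map_mul,
        ← mulVec_mulVec, ← htσ, mulVec_smul, ← hs, smul_comm]
    have h2 := congrArg (lead A b z) hact
    rw [← matAct_apply, ← matAct_apply, ht.lead_inertia h hM hb (hconjI hσ₁) ht.deep,
      ht.lead_inertia h hM hb hσ₁ ht.deep] at h2
    exact smul_left_injective _ (ht.lead_top_ne h hM hb) h2
  -- the action of inertia factors through the character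
  have hker : ∀ σ ∈ A.inertiaSubgroupIn ℚ, ∀ τ ∈ A.inertiaSubgroupIn ℚ, θ σ = θ τ → ρ σ = ρ τ := by
    intro σ hσ τ hτ e
    suffices key : ∀ w, ρ σ *ᵥ w = ρ τ *ᵥ w from Matrix.ext_of_mulVec_single fun i => key _
    intro w
    have hy : w ∈ Submodule.span k {x | Deep A p b z x} := hV ▸ Submodule.mem_top
    induction hy using Submodule.span_induction with
    | mem y hy => exact ht.act_eq_of_kummerRes h hM hb hσ hτ e hy
    | zero => rw [mulVec_zero, mulVec_zero]
    | add y y' _ _ h1 h2 => rw [mulVec_add, mulVec_add, h1, h2]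
    | smul a y _ h1 => rw [mulVec_smul, mulVec_smul, h1]
  -- the quadratic equation over `𝔽_p`
  have hquad : ∀ σ ∈ A.inertiaSubgroupIn ℚ, ∃ t : ℕ, θ σ * θ σ +
      (((cycloChar p σ : ZMod p).val : ℕ) : IsLocalRing.ResidueField A) =
      (t : IsLocalRing.ResidueField A) * θ σ := by
    intro σ hσ
    have he : ρ (φ * σ * φ⁻¹) = ρ (σ ^ p) :=
      hker _ (hconjI hσ) _ (pow_mem hσ p) (by rw [hθφ σ hσ, hθpow σ hσ])
    have htr : (ρ σ).trace ^ p = (ρ σ).trace := by
      rw [← trace_pow_char hp3, ← map_pow, ← he, map_mul, map_mul, Matrix.trace_mul_cycle,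
        ← map_mul, inv_mul_cancel, map_one, one_mul]
    obtain ⟨t, htt⟩ := exists_natCast_of_pow_eq_self htr
    refine ⟨t, ?_⟩
    have hch := congrArg (· *ᵥ x₀) (sq_add_det (ρ σ))
    simp only [add_mulVec, smul_mulVec, one_mulVec, ← mulVec_mulVec, hdet, htt,
      Nat.cast_smul_eq_nsmul, ← matAct_apply] at hch
    have hd1 := deep_act h hM hb (MultRed.inertia_mem_decomposition hσ) ht.deep
    have h2 := congrArg (lead A b z) hch
    rw [ht.lead_add h hM hb (deep_act h hM hb (MultRed.inertia_mem_decomposition hσ) hd1)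
        (ht.deep_nsmul h hM hb ht.deep _), ht.lead_nsmul h hM hb ht.deep,
      ht.lead_nsmul h hM hb hd1, ht.lead_inertia h hM hb hσ hd1,
      ht.lead_inertia h hM hb hσ ht.deep] at h2
    simp only [← Nat.cast_smul_eq_nsmul (IsLocalRing.ResidueField A), smul_smul, ← add_smul] at h2
    exact smul_left_injective _ (ht.lead_top_ne h hM hb) h2
  have hfrobN : ∀ n : ℕ, ((n : ℕ) : IsLocalRing.ResidueField A) ^ p = n := fun n => by
    rw [← frobenius_def, map_natCast]
  have hsq : ∀ σ ∈ A.inertiaSubgroupIn ℚ, θ σ ^ (p ^ 2 - 1) = 1 ∧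
      (θ σ ^ p ≠ θ σ →
        (((cycloChar p σ : ZMod p).val : ℕ) : IsLocalRing.ResidueField A) = θ σ ^ (p + 1)) := by
    intro σ hσ
    obtain ⟨t, htq⟩ := hquad σ hσ
    have h2 := congrArg (frobenius (IsLocalRing.ResidueField A) p) htq
    simp only [map_add, map_mul, map_natCast, frobenius_def] at h2
    have hd : θ σ ^ p = θ σ ∨ θ σ ^ p = (t : IsLocalRing.ResidueField A) - θ σ := by
      have h3 : (θ σ ^ p - θ σ) * (θ σ ^ p - ((t : IsLocalRing.ResidueField A) - θ σ)) = 0 := by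
        linear_combination h2 - htq
      rcases mul_eq_zero.mp h3 with e | e
      · exact Or.inl (sub_eq_zero.mp e)
      · exact Or.inr (sub_eq_zero.mp e)
    refine ⟨?_, fun hne => ?_⟩
    · have hne : θ σ ≠ 0 := fun e => by
        have h1 := hθmul σ hσ σ⁻¹ (inv_mem hσ)
        rw [mul_inv_cancel, e, zero_mul] at h1
        exact one_ne_zero ((EllLocal.kummerRes_one ht.ne).symm.trans h1)
      refine mul_right_cancel₀ hne ?_
      rw [← pow_succ, Nat.sub_add_cancel (Nat.one_le_pow _ _ hp.pos), one_mul, sq, pow_mul]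
      rcases hd with e | e
      · rw [e, e]
      · rw [e, sub_pow_char, hfrobN, e]; ring
    · rw [pow_succ, (hd.resolve_left hne)]
      linear_combination htq
  -- a generator
  have : NeZero (p ^ 2 - 1) := ⟨by
    have : 2 ≤ p ^ 2 := le_trans hp.two_le (Nat.le_self_pow two_ne_zero p)
    omega⟩
  let f : A.inertiaSubgroupIn ℚ →* rootsOfUnity (p ^ 2 - 1) (IsLocalRing.ResidueField A) :=
    { toFun := fun σ => rootsOfUnity.mkOfPowEq (θ σ.1) (hsq σ.1 σ.2).1
      map_one' := Subtype.ext (Units.ext (by simpa [hθ] using EllLocal.kummerRes_one ht.ne))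
      map_mul' := fun σ τ => Subtype.ext (Units.ext (by simpa using hθmul _ σ.2 _ τ.2)) }
  obtain ⟨⟨_, ⟨g, hg⟩, rfl⟩, hgen'⟩ := IsCyclic.exists_monoid_generator (α := f.range)
  have hgen : ∀ σ ∈ A.inertiaSubgroupIn ℚ, ∃ j : ℕ, θ σ = θ g ^ j := fun σ hσ => by
    obtain ⟨j, hj⟩ := hgen' ⟨f ⟨σ, hσ⟩, ⟨σ, hσ⟩, rfl⟩
    refine ⟨j, ?_⟩
    have := congrArg (fun x : f.range =>
      (((x : rootsOfUnity (p ^ 2 - 1) (IsLocalRing.ResidueField A)) :
        (IsLocalRing.ResidueField A)ˣ) : IsLocalRing.ResidueField A)) hj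
    simpa [f] using this.symm
  have hgne : θ g ^ p ≠ θ g := fun e => by
    obtain ⟨j, hj⟩ := hgen σ₁ hσ₁
    exact hσ₁ne (by rw [hj, ← pow_mul, mul_comm, pow_mul, e])
  have hgn : θ g ^ (p ^ 2 - 1) = 1 := (hsq g hg).1
  have hwg := (hsq g hg).2 hgne
  set m := orderOf (θ g) with hm
  have hmn : m ∣ p ^ 2 - 1 := orderOf_dvd_of_pow_eq_one hgn
  have hm0 : 0 < m := Nat.pos_of_dvd_of_pos hmn (Nat.pos_of_ne_zero (NeZero.ne _))
  obtain ⟨a₀, ha₀, hae⟩ := ht.exists_mul_ord_eq h hM hb hg hm0 (pow_orderOf_eq_one _) hgen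
  obtain ⟨d, hd⟩ := hmn
  have hd0 : 0 < d := Nat.pos_of_ne_zero fun e => NeZero.ne (p ^ 2 - 1) (by rw [hd, e, mul_zero])
  set a := d * a₀ with hadef
  have hp1 : (0 : ℚ) < (p : ℚ) - 1 := by
    have : (3 : ℚ) ≤ p := by exact_mod_cast hp3
    linarith
  have hn : ((p : ℚ) + 1) * ((p : ℚ) - 1) * ord A p z = a := by
    have e1 : ((p ^ 2 - 1 : ℕ) : ℚ) = ((p : ℚ) + 1) * ((p : ℚ) - 1) := by
      rw [Nat.cast_sub (Nat.one_le_pow _ _ hp.pos)]; push_cast; ring
    rw [← e1, hd, hadef]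
    push_cast
    linear_combination (d : ℚ) * hae
  have ha_le : a ≤ p + 1 := by
    have h1 := mul_le_mul_of_nonneg_left ht.le_gap
      (show (0 : ℚ) ≤ ((p : ℚ) + 1) * ((p : ℚ) - 1) by positivity)
    rw [hn, rootGap, mul_assoc, mul_one_div, div_self hp1.ne', mul_one] at h1
    exact_mod_cast h1
  have hpow := hcyclo a (p + 1) (by
    rw [rootGap, ← mul_div_assoc, mul_one, eq_div_iff hp1.ne', ← hn]
    push_cast
    ring) g hg
  -- the cyclotomic character of the generator has order `p - 1`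
  set u := cycloChar p g with hu
  have hcast : ∀ x : ZMod p, ((x.val : ℕ) : IsLocalRing.ResidueField A) =
      ZMod.castHom (dvd_refl p) (IsLocalRing.ResidueField A) x := fun x => by
    rw [ZMod.castHom_apply, ZMod.cast_eq_val]
  have hua : u ^ a = u := by
    refine Units.ext ((ZMod.castHom (dvd_refl p) (IsLocalRing.ResidueField A)).injective ?_)
    rw [Units.val_pow_eq_pow_val, map_pow, ← hcast, ← hpow, hwg]
  have huord : orderOf u = p - 1 := by
    have hall : ∀ v : (ZMod p)ˣ, v ∈ Subgroup.zpowers u := fun v => by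
      obtain ⟨σ, hσ, hσv⟩ := exists_inertia_cycloChar h.liesOver v
      obtain ⟨j, hj⟩ := hgen σ hσ
      have e := hker σ hσ (g ^ j) (pow_mem hg j) (by rw [hj, hθpow g hg])
      refine ⟨j, ?_⟩
      have e2 := congrArg Matrix.det e
      rw [hdet, hdet, map_pow, hσv] at e2
      show u ^ (j : ℤ) = v
      rw [zpow_natCast]
      refine Units.ext ((ZMod.castHom (dvd_refl p) k).injective ?_)
      simp only [ZMod.castHom_apply, ZMod.cast_eq_val]
      exact e2.symm
    rw [orderOf_eq_card_of_forall_mem_zpowers hall, Nat.card_eq_fintype_card, ZMod.card_units]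
  have ha1 : 1 ≤ a := Nat.mul_pos hd0 ha₀
  have hdiv : p - 1 ∣ a - 1 := by
    refine huord ▸ orderOf_dvd_of_pow_eq_one (mul_right_cancel (b := u) ?_)
    rw [← pow_succ, Nat.sub_add_cancel ha1, hua, one_mul]
  have hd1 : d = 1 := by
    have hap : a = 1 ∨ a = p := by
      obtain ⟨c, hc⟩ := hdiv
      rcases c with _ | _ | c
      · omega
      · omega
      · exfalso
        rw [mul_add, mul_add] at hc
        omega
    rcases hap with e | e
    · exact Nat.eq_one_of_mul_eq_one_right (hadef.symm.trans e)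
    · rcases hp.eq_one_or_self_of_dvd d ⟨a₀, (hadef.symm.trans e).symm⟩ with e' | e'
      · exact e'
      · exfalso
        have h1 : p ∣ p ^ 2 - 1 := ⟨m, by rw [hd, e', mul_comm]⟩
        exact not_dvd_sq_sub_one hp h1
  rw [hd1, mul_one] at hd
  -- conclusion
  refine ⟨⟨g, hg, ?_, fun n hn => ?_, ⟨((u : ZMod p).val : k), ?_⟩, fun σ hσ => ?_⟩⟩
  · rw [← map_pow, hker _ (pow_mem hg _) 1 (one_mem _)
      (by rw [hθpow g hg, hgn]; exact (EllLocal.kummerRes_one ht.ne).symm), map_one]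
  · rw [hd, hm]
    refine orderOf_dvd_of_pow_eq_one ?_
    rw [← map_pow] at hn
    rw [← hθpow g hg]
    have hx : matAct ρ (g ^ n) x₀ = x₀ := by rw [matAct_apply, hn, one_mulVec]
    have h2 := ht.lead_inertia h hM hb (pow_mem hg n) ht.deep
    rw [hx] at h2
    exact smul_left_injective _ (ht.lead_top_ne h hM hb) (h2.symm.trans (one_smul _ _).symm)
  · suffices key : ∀ w, ρ g ^ (p + 1) *ᵥ w =
        (((u : ZMod p).val : k) • (1 : Matrix (Fin 2) (Fin 2) k)) *ᵥ w from
      Matrix.ext_of_mulVec_single fun i => key _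
    intro w
    have hy : w ∈ Submodule.span k {x | Deep A p b z x} := hV ▸ Submodule.mem_top
    induction hy using Submodule.span_induction with
    | mem y hy =>
      rw [smul_mulVec, one_mulVec, ← map_pow, Nat.cast_smul_eq_nsmul, ← matAct_apply]
      refine ht.lead_injective h hM hb
        (deep_act h hM hb (MultRed.inertia_mem_decomposition (pow_mem hg _)) hy)
        (ht.deep_nsmul h hM hb hy _) ?_
      rw [ht.lead_inertia h hM hb (pow_mem hg _) hy, ht.lead_nsmul h hM hb hy,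
        ← Nat.cast_smul_eq_nsmul (IsLocalRing.ResidueField A), hwg, ← hθpow g hg]
    | zero => rw [mulVec_zero, mulVec_zero]
    | add y y' _ _ h1 h2 => rw [mulVec_add, mulVec_add, h1, h2]
    | smul c y _ h1 => rw [mulVec_smul, mulVec_smul, h1]
  · obtain ⟨j, hj⟩ := hgen σ hσ
    exact ⟨j, by rw [← map_pow]; exact hker σ hσ _ (pow_mem hg j) (by rw [hj, hθpow g hg])⟩

/-- **The residual shape.** -/
theorem isFlatShape_of_model : IsFlatShape A p ρ := by
  set V := Submodule.span k {y | ∃ σ ∈ A.inertiaSubgroupIn ℚ, ∃ x, ρ σ *ᵥ x - x = y} with hV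
  by_cases htop : V = ⊤
  · refine ⟨1, Or.inr ?_⟩
    have e : conjRep 1 ρ = ρ := MonoidHom.ext fun σ => by simp [conjRep_apply]
    rw [e]
    exact isSSShape_of_span_top h hp3 hdet hM htop
  have hmem : ∀ σ ∈ A.inertiaSubgroupIn ℚ, ∀ y, ρ σ *ᵥ y - y ∈ V := fun σ hσ y =>
    Submodule.subset_span ⟨σ, hσ, y, rfl⟩
  have hne : V ≠ ⊥ := fun e => by
    have hu : (2 : ZMod p) ≠ 0 := fun e2 => by
      have : ((2 : ℕ) : ZMod p) = 0 := by simpa using e2
      have := Nat.le_of_dvd two_pos ((ZMod.natCast_eq_zero_iff 2 p).mp this)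
      omega
    obtain ⟨σ, hσ, hσu⟩ := exists_inertia_cycloChar h.liesOver (Units.mk0 _ hu)
    have h1 : ρ σ = 1 := Matrix.ext_of_mulVec_single fun i => by
      have h1 := hmem σ hσ (Pi.single i 1)
      rw [e, Submodule.mem_bot, sub_eq_zero] at h1
      rw [h1, one_mulVec]
    have h2 := hdet σ
    rw [h1, det_one, hσu, Units.val_mk0, show (2 : ZMod p).val = 2 from
      ZMod.val_natCast_of_lt (show 2 < p by omega)] at h2
    have h3 : (1 : k) = 1 + 1 := by rw [one_add_one_eq_two]; exact_mod_cast h2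
    exact one_ne_zero (left_eq_add.mp h3)
  obtain ⟨v, hvV, hv⟩ := Submodule.exists_mem_ne_zero_of_ne_bot hne
  have hVv : V = k ∙ v := by
    refine (Submodule.eq_of_le_of_finrank_le
      ((Submodule.span_singleton_le_iff_mem _ _).mpr hvV) ?_).symm
    have h1 := Submodule.finrank_lt htop
    rw [finrank_pi, Fintype.card_fin] at h1
    rw [finrank_span_singleton hv]
    omega
  have hDv : ∀ φ ∈ A.decompositionSubgroup ℚ, ρ φ *ᵥ v ∈ k ∙ v := by
    intro φ hφ
    rw [← hVv]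
    have hstab : V ≤ V.comap (ρ φ).mulVecLin := by
      refine Submodule.span_le.mpr ?_
      rintro y ⟨σ, hσ, x, rfl⟩
      show ρ φ *ᵥ (ρ σ *ᵥ x - x) ∈ V
      have := hmem _ (TameInertia.inertia_normal_in_decomposition hφ hσ) (ρ φ *ᵥ x)
      rwa [mulVec_mulVec, ← map_mul, inv_mul_cancel_right, map_mul, ← mulVec_mulVec,
        ← mulVec_sub] at this
    exact hstab hvV
  obtain ⟨P, hP⟩ := exists_isOrdShape h hdet hv hDv fun σ hσ y => hVv ▸ hmem σ hσ y
  exact ⟨P, Or.inl hP⟩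

end Fermat.Agent.RowS56
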